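/-
Row 37 (S43), block E0, sub-block (O3) = CENTRES OF PLACES (helper59).  Part 1: ONE FIELD.

`F` a field over `K₀`, `A₀` a valuation ring of `K₀`.  A valuation ring `VV` of `F` is "of closed
point type" (`IsClosedVal A₀ VV`) if it dominates `A₀` and has the same residue field.
Such a `VV` has a centre on the model glued from `chart A₀ z`, `chart A₀ z⁻¹`, it is a closed point
of the special fibre (`IsModelPt`), and it is unique.

Language: `BAD/LevelQ/Pt/Defs.lean` (`IsClosedPt`, `IsModelPt`, `Dominates`).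
-/
import Fermat.Agent.BAD.LevelQ.Pt.Main

set_option autoImplicit false
set_option linter.style.haveILetI false

noncomputable section

namespace Fermat.Agent.S43.E0.Centre

open Fermat.Agent.S18 Fermat.Agent.S36.BP Fermat.Agent.BAD.LevelQ

variable {K₀ F : Type*} [Field K₀] [Field F] [Algebra K₀ F]
variable {A₀ : ValuationSubring K₀} {ϖ₀ : K₀} {z : F} {VV : ValuationSubring F}

/-- `VV` dominates `A₀` and has the same residue field. -/
structure IsClosedVal (A₀ : ValuationSubring K₀) (VV : ValuationSubring F) : Prop where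
  const_mem : ∀ a ∈ A₀, algebraMap K₀ F a ∈ VV
  const_lt : ∀ a : K₀, A₀.valuation a < 1 → VV.valuation (algebraMap K₀ F a) < 1
  res : ∀ y ∈ VV, ∃ a ∈ A₀, VV.valuation (y - algebraMap K₀ F a) < 1

/-- The centre of `VV ∋ z` on the chart of `z` is a closed point of the special fibre. -/
theorem IsClosedVal.exists_center (h : IsClosedVal A₀ VV) (hϖ : A₀.valuation ϖ₀ < 1)
    (hz : z ∈ VV) :
    ∃ R : Subring F, IsClosedPt (algebraMap K₀ F ϖ₀) (chart A₀.toSubring z) R ∧
      Dominates VV R := by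
  have hBVV : ∀ b ∈ chart A₀.toSubring z, b ∈ VV := fun b hb =>
    (mem_chart_iff_forall_valuationSubring _ z b).mp hb VV h.const_mem hz
  have hcB : ∀ a ∈ A₀, algebraMap K₀ F a ∈ chart A₀.toSubring z := fun a ha =>
    (mem_chart_iff_forall_valuationSubring _ z _).mpr fun W hS _ => hS a ha
  set 𝔫 : Ideal (chart A₀.toSubring z) := (IsLocalRing.maximalIdeal VV).comap
    (Subring.inclusion (show chart A₀.toSubring z ≤ VV.toSubring from hBVV)) with h𝔫def
  have hm𝔫 : ∀ b : chart A₀.toSubring z, b ∈ 𝔫 ↔ VV.valuation (b : F) < 1 := by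
    intro b
    rw [h𝔫def, Ideal.mem_comap]
    exact VV.valuation_lt_one_iff _
  have hunit : ∀ s : chart A₀.toSubring z, s ∉ 𝔫 → VV.valuation (s : F) = 1 := fun s hs =>
    le_antisymm ((VV.valuation_le_one_iff _).mpr (hBVV _ s.2))
      (not_lt.mp fun hlt => hs ((hm𝔫 s).mpr hlt))
  have hmax : 𝔫.IsMaximal := by
    rw [Ideal.isMaximal_iff]
    refine ⟨fun h1 => ?_, fun J x hJ hx hxJ => ?_⟩
    · have h2 := (hm𝔫 1).mp h1
      rw [Subring.coe_one, map_one] at h2
      exact lt_irrefl _ h2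
    · have hx1 := hunit x hx
      have hxi : (x : F)⁻¹ ∈ VV := by
        rw [← VV.valuation_le_one_iff, map_inv₀, hx1, inv_one]
      obtain ⟨a, ha, hlt⟩ := h.res _ hxi
      have hx0 : (x : F) ≠ 0 := by
        intro h0
        rw [h0, map_zero] at hx1
        exact zero_ne_one hx1
      have h3 : (1 - x * ⟨algebraMap K₀ F a, hcB a ha⟩ : chart A₀.toSubring z) ∈ 𝔫 := by
        rw [hm𝔫]
        have e : (((1 - x * ⟨algebraMap K₀ F a, hcB a ha⟩ : chart A₀.toSubring z)) : F) =
            (x : F) * ((x : F)⁻¹ - algebraMap K₀ F a) := by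
          push_cast
          rw [mul_sub, mul_inv_cancel₀ hx0]
        rw [e, map_mul, hx1, one_mul]
        exact hlt
      have h4 := J.add_mem (hJ h3) (J.mul_mem_right ⟨algebraMap K₀ F a, hcB a ha⟩ hxJ)
      rwa [sub_add_cancel] at h4
  have hϖ' : ∀ ϖB : chart A₀.toSubring z, (ϖB : F) = algebraMap K₀ F ϖ₀ → ϖB ∈ 𝔫 := by
    intro ϖB e
    rw [hm𝔫, e]
    exact h.const_lt _ hϖ
  refine ⟨locSub (chart A₀.toSubring z) 𝔫, ⟨𝔫, hmax, hϖ', rfl⟩, ?_, ?_⟩
  · rintro r ⟨a, s, hs, e⟩
    have h1 := congrArg VV.valuation e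
    rw [map_mul, hunit s hs, mul_one] at h1
    rw [← VV.valuation_le_one_iff, h1]
    exact (VV.valuation_le_one_iff _).mpr (hBVV _ a.2)
  · intro r hr
    obtain ⟨a, s, ha, hs, e⟩ := mem_rad_locSub_iff.mp hr
    have h1 := congrArg VV.valuation e
    rw [map_mul, hunit s hs, mul_one] at h1
    rw [h1]
    exact (hm𝔫 a).mp ha

/-- **Existence of the centre** on the model glued from the charts of `z` and `z⁻¹`. -/
theorem IsClosedVal.exists_modelPt (h : IsClosedVal A₀ VV) (hϖ : A₀.valuation ϖ₀ < 1) (z : F) :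
    ∃ R : Subring F, IsModelPt A₀ ϖ₀ z R ∧ Dominates VV R := by
  rcases VV.mem_or_inv_mem z with hz | hz
  · obtain ⟨R, hR, hd⟩ := h.exists_center hϖ hz
    exact ⟨R, Or.inl hR, hd⟩
  · obtain ⟨R, hR, hd⟩ := h.exists_center hϖ hz
    exact ⟨R, Or.inr hR, hd⟩

/-- **Existence and uniqueness of the centre.** -/
theorem IsClosedVal.existsUnique_modelPt (h : IsClosedVal A₀ VV) (h₀ : IsUnif A₀ ϖ₀)
    (hz : z ≠ 0) : ∃! R : Subring F, IsModelPt A₀ ϖ₀ z R ∧ Dominates VV R := by
  obtain ⟨R, hR, hd⟩ := h.exists_modelPt (CoordAux.valuation_unif_lt_one h₀) z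
  exact ⟨R, ⟨hR, hd⟩, fun R' h' => IsModelPt.eq_of_dominates h₀ hz h'.1 hR h'.2 hd⟩

/-! ### what domination gives -/

theorem val_eq_one_of_dominates {R : Subring F} (hd : Dominates VV R) {r : F} (hr : RUnit R r) :
    VV.valuation r = 1 := hr.val_eq_one hd.1

/-- `r ≡ a` at the point `⇒` `r ≡ a` in the residue field of `VV`. -/
theorem val_sub_lt_of_dominates {R : Subring F} (hd : Dominates VV R) {r s : F}
    (h : r - s ∈ rad R) : VV.valuation (r - s) < 1 := hd.2 _ h

/-- An element of `R` is a unit of `R` iff it is a unit of the dominating valuation ring. -/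
theorem runit_iff_of_dominates {R : Subring F} (hd : Dominates VV R) {r : F} (hr : r ∈ R) :
    RUnit R r ↔ VV.valuation r = 1 := by
  refine ⟨fun h => val_eq_one_of_dominates hd h, fun h => ?_⟩
  rcases runit_or_mem_rad hr with h1 | h1
  · exact h1
  · exact absurd (hd.2 _ h1) (by rw [h]; exact lt_irrefl _)

/-- An element of `R` lies in the radical iff it is a nonunit of the dominating valuation ring. -/
theorem mem_rad_iff_of_dominates {R : Subring F} (hd : Dominates VV R) {r : F} (hr : r ∈ R) :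
    r ∈ rad R ↔ VV.valuation r < 1 :=
  ⟨fun h => hd.2 _ h, fun h => mem_rad_of_val_lt hd.1 hr h⟩

end Fermat.Agent.S43.E0.Centre

end
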