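/-
Row 37 (S43), block E0, sub-block (O3) = CENTRES OF PLACES (helper59).  Part 2: THE COMPOSITE RING.

`Fb / Kb` a function field in one variable over an algebraically closed field, `Ab` a valuation ring
of `Kb`, `P` a place.  `cRing Ab P = {f | f regular at P, f(P) ∈ Ab}` is a valuation ring of `Fb`.
Given `φ : K₀ → Kb`, `Φ : F₀ → Fb` (base change), `vRing Φ Ab P` is its restriction to `F₀`, and
`Centred Φ Ab P R` says that it dominates the local ring `R ⊆ F₀`: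

  `centred_iff : Centred Φ Ab P R ↔ (∀ r ∈ R, 0 ≤ P.ord (Φ r) ∧ ev P (Φ r) ∈ Ab) ∧
                                      ∀ r ∈ rad R, Ab.valuation (ev P (Φ r)) < 1`.

Under `BC φ Φ A₀ Ab` (`Ab ∩ K₀ = A₀`, same residue field) every place has a unique centre among the
closed points of the model glued from `chart A₀ z`, `chart A₀ z⁻¹`.
-/
import Fermat.Agent.S27.Ev
import Fermat.Agent.S43.E0.Centre.Abs

set_option autoImplicit false

noncomputable section

namespace Fermat.Agent.S43.E0.Centre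

open AlgebraicCurve Fermat.Agent.S24.FF Fermat.Agent.S27 Fermat.Agent.S18 Fermat.Agent.S36.BP
  Fermat.Agent.BAD.LevelQ

section VS

variable {L L' : Type*} [Field L] [Field L']

theorem val_lt_one_iff_inv (V : ValuationSubring L) (x : L) :
    V.valuation x < 1 ↔ x = 0 ∨ x⁻¹ ∉ V := by
  rcases eq_or_ne x 0 with rfl | hx
  · simp
  · rw [← V.valuation_le_one_iff, map_inv₀, not_le]
    have h0 : 0 < V.valuation x := zero_lt_iff.mpr ((Valuation.ne_zero_iff _).mpr hx)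
    constructor
    · intro h
      exact Or.inr ((one_lt_inv₀ h0).mpr h)
    · rintro (h | h)
      · exact absurd h hx
      · exact (one_lt_inv₀ h0).mp h

theorem val_eq_one_iff_le_not_lt (V : ValuationSubring L) (x : L) :
    V.valuation x = 1 ↔ x ∈ V ∧ ¬ V.valuation x < 1 := by
  rw [← V.valuation_le_one_iff, not_lt]
  exact ⟨fun h => ⟨h.le, h.ge⟩, fun h => le_antisymm h.1 h.2⟩

theorem val_comap_lt_one_iff (V : ValuationSubring L') (f : L →+* L') (x : L) :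
    (V.comap f).valuation x < 1 ↔ V.valuation (f x) < 1 := by
  rw [val_lt_one_iff_inv, val_lt_one_iff_inv, ValuationSubring.mem_comap, map_inv₀, map_eq_zero]

theorem val_comap_eq_one_iff (V : ValuationSubring L') (f : L →+* L') (x : L) :
    (V.comap f).valuation x = 1 ↔ V.valuation (f x) = 1 := by
  rw [val_eq_one_iff_le_not_lt, val_eq_one_iff_le_not_lt, val_comap_lt_one_iff,
    ValuationSubring.mem_comap]

end VS

section Comp

variable {Kb Fb : Type*} [Field Kb] [Field Fb] [Algebra Kb Fb] [IsAlgClosed Kb] [IsFF1 Kb Fb]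

/-- The composite of the valuation ring of the place `P` with the valuation ring `Ab` of the
constant (= residue) field: functions regular at `P` with value in `Ab`. -/
def cRing (Ab : ValuationSubring Kb) (P : Place Kb Fb) : ValuationSubring Fb where
  carrier := {f | 0 ≤ P.ord f ∧ ev P f ∈ Ab}
  mul_mem' := fun {f g} hf hg =>
    ⟨ord_nonneg_of_mem P (mul_mem (mem_of_ord_nonneg P hf.1) (mem_of_ord_nonneg P hg.1)), by
      rw [ev_mul hf.1 hg.1]; exact Ab.mul_mem _ _ hf.2 hg.2⟩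
  one_mem' := ⟨by simp, by
    have := ev_algebraMap P (1 : Kb)
    rw [map_one] at this
    rw [this]; exact Ab.one_mem⟩
  add_mem' := fun {f g} hf hg =>
    ⟨ord_nonneg_of_mem P (add_mem (mem_of_ord_nonneg P hf.1) (mem_of_ord_nonneg P hg.1)), by
      rw [ev_add hf.1 hg.1]; exact Ab.add_mem _ _ hf.2 hg.2⟩
  zero_mem' := ⟨by simp, by
    have := ev_algebraMap P (0 : Kb)
    rw [map_zero] at this
    rw [this]; exact Ab.zero_mem⟩
  neg_mem' := fun {f} hf =>
    ⟨ord_nonneg_of_mem P (neg_mem (mem_of_ord_nonneg P hf.1)), by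
      rw [ev_eq_of_isVal (isVal_ev hf.1).neg]; exact Ab.neg_mem _ hf.2⟩
  mem_or_inv_mem' := by
    intro f
    rcases lt_trichotomy (P.ord f) 0 with h | h | h
    · right
      have h' : 0 < P.ord f⁻¹ := by rw [P.ord_inv]; omega
      exact ⟨h'.le, by rw [(ev_eq_zero_iff h'.le).mpr (Or.inr h')]; exact Ab.zero_mem⟩
    · rcases eq_or_ne f 0 with rfl | hf0
      · left
        exact ⟨h.ge, by rw [(ev_eq_zero_iff h.ge).mpr (Or.inl rfl)]; exact Ab.zero_mem⟩
      rcases Ab.mem_or_inv_mem (ev P f) with h1 | h1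
      · exact Or.inl ⟨h.ge, h1⟩
      · right
        exact ⟨by rw [P.ord_inv, h, neg_zero], by rw [ev_inv hf0 h]; exact h1⟩
    · exact Or.inl ⟨h.le, by rw [(ev_eq_zero_iff h.le).mpr (Or.inr h)]; exact Ab.zero_mem⟩

variable {Ab : ValuationSubring Kb} {P : Place Kb Fb} {f : Fb}

theorem mem_cRing : f ∈ cRing Ab P ↔ 0 ≤ P.ord f ∧ ev P f ∈ Ab := Iff.rfl

theorem val_cRing_lt_one_iff :
    (cRing Ab P).valuation f < 1 ↔ 0 ≤ P.ord f ∧ Ab.valuation (ev P f) < 1 := by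
  rw [val_lt_one_iff_inv, val_lt_one_iff_inv]
  constructor
  · rintro (rfl | h)
    · exact ⟨by simp, Or.inl ((ev_eq_zero_iff (by simp)).mpr (Or.inl rfl))⟩
    · rcases lt_trichotomy (P.ord f) 0 with h0 | h0 | h0
      · exfalso
        apply h
        have h' : 0 < P.ord f⁻¹ := by rw [P.ord_inv]; omega
        exact ⟨h'.le, by rw [(ev_eq_zero_iff h'.le).mpr (Or.inr h')]; exact Ab.zero_mem⟩
      · refine ⟨h0.ge, ?_⟩
        rcases eq_or_ne f 0 with rfl | hf0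
        · exact Or.inl ((ev_eq_zero_iff (by simp)).mpr (Or.inl rfl))
        right
        intro h1
        exact h ⟨by rw [P.ord_inv, h0, neg_zero], by rw [ev_inv hf0 h0]; exact h1⟩
      · exact ⟨h0.le, Or.inl ((ev_eq_zero_iff h0.le).mpr (Or.inr h0))⟩
  · rintro ⟨h0, h1⟩
    by_cases hf : f = 0
    · exact Or.inl hf
    · right
      rintro ⟨h2, h3⟩
      rw [P.ord_inv] at h2
      have h4 : P.ord f = 0 := by omega
      rw [ev_inv hf h4] at h3
      rcases h1 with h5 | h5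
      · exact ev_ne_zero_of_ord_eq_zero hf h4 h5
      · exact h5 h3

theorem val_cRing_eq_one_iff :
    (cRing Ab P).valuation f = 1 ↔ P.ord f = 0 ∧ Ab.valuation (ev P f) = 1 := by
  rw [val_eq_one_iff_le_not_lt, val_cRing_lt_one_iff, mem_cRing]
  constructor
  · rintro ⟨⟨h0, h1⟩, h2⟩
    have h3 : Ab.valuation (ev P f) = 1 :=
      (val_eq_one_iff_le_not_lt _ _).mpr ⟨h1, fun h => h2 ⟨h0, h⟩⟩
    refine ⟨((isVal_ev h0).ord_eq_zero ?_).2, h3⟩
    intro h
    rw [h, map_zero] at h3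
    exact zero_ne_one h3
  · rintro ⟨h0, h1⟩
    exact ⟨⟨h0.ge, ((val_eq_one_iff_le_not_lt _ _).mp h1).1⟩,
      fun h => ((val_eq_one_iff_le_not_lt _ _).mp h1).2 h.2⟩

theorem cRing_le : cRing Ab P ≤ P.toValuationSubring := fun _ hf => mem_of_ord_nonneg P hf.1

end Comp

section BaseChange

variable {K₀ F₀ Kb Fb : Type*} [Field K₀] [Field F₀] [Algebra K₀ F₀] [Field Kb] [Field Fb]
  [Algebra Kb Fb] [IsAlgClosed Kb] [IsFF1 Kb Fb]

/-- The restriction to `F₀` of the composite valuation ring of `P` and `Ab`. -/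
def vRing (Φ : F₀ →+* Fb) (Ab : ValuationSubring Kb) (P : Place Kb Fb) : ValuationSubring F₀ :=
  (cRing Ab P).comap Φ

/-- **The place `P` of `Fb` is centred at the point `R` of the model of `F₀`.** -/
def Centred (Φ : F₀ →+* Fb) (Ab : ValuationSubring Kb) (P : Place Kb Fb) (R : Subring F₀) : Prop :=
  Dominates (vRing Φ Ab P) R

variable {φ : K₀ →+* Kb} {Φ : F₀ →+* Fb} {A₀ : ValuationSubring K₀} {Ab : ValuationSubring Kb}
  {P : Place Kb Fb} {R : Subring F₀}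

theorem mem_vRing {f : F₀} : f ∈ vRing Φ Ab P ↔ 0 ≤ P.ord (Φ f) ∧ ev P (Φ f) ∈ Ab := Iff.rfl

theorem val_vRing_lt_one_iff {f : F₀} :
    (vRing Φ Ab P).valuation f < 1 ↔ 0 ≤ P.ord (Φ f) ∧ Ab.valuation (ev P (Φ f)) < 1 := by
  rw [vRing, val_comap_lt_one_iff, val_cRing_lt_one_iff]

theorem val_vRing_eq_one_iff {f : F₀} :
    (vRing Φ Ab P).valuation f = 1 ↔ P.ord (Φ f) = 0 ∧ Ab.valuation (ev P (Φ f)) = 1 := by
  rw [vRing, val_comap_eq_one_iff, val_cRing_eq_one_iff]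

/-- (C0) unfolding. -/
theorem centred_iff : Centred Φ Ab P R ↔
    (∀ r ∈ R, 0 ≤ P.ord (Φ r) ∧ ev P (Φ r) ∈ Ab) ∧
      ∀ r ∈ rad R, Ab.valuation (ev P (Φ r)) < 1 := by
  constructor
  · rintro ⟨h1, h2⟩
    exact ⟨fun r hr => mem_vRing.mp (h1 r hr), fun r hr => (val_vRing_lt_one_iff.mp (h2 r hr)).2⟩
  · rintro ⟨h1, h2⟩
    exact ⟨fun r hr => mem_vRing.mpr (h1 r hr),
      fun r hr => val_vRing_lt_one_iff.mpr ⟨(h1 r hr.1).1, h2 r hr⟩⟩

theorem Centred.ord_nonneg (h : Centred Φ Ab P R) {r : F₀} (hr : r ∈ R) : 0 ≤ P.ord (Φ r) :=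
  (mem_vRing.mp (h.1 r hr)).1

theorem Centred.ev_mem (h : Centred Φ Ab P R) {r : F₀} (hr : r ∈ R) : ev P (Φ r) ∈ Ab :=
  (mem_vRing.mp (h.1 r hr)).2

theorem Centred.ev_lt (h : Centred Φ Ab P R) {r : F₀} (hr : r ∈ rad R) :
    Ab.valuation (ev P (Φ r)) < 1 :=
  (val_vRing_lt_one_iff.mp (h.2 r hr)).2

/-- (C3a) a unit of `R` has order `0` and a unit value at every place centred at `R`. -/
theorem Centred.ord_eq_zero (h : Centred Φ Ab P R) {r : F₀} (hr : RUnit R r) :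
    P.ord (Φ r) = 0 :=
  (val_vRing_eq_one_iff.mp (val_eq_one_of_dominates h hr)).1

theorem Centred.ev_eq_one (h : Centred Φ Ab P R) {r : F₀} (hr : RUnit R r) :
    Ab.valuation (ev P (Φ r)) = 1 :=
  (val_vRing_eq_one_iff.mp (val_eq_one_of_dominates h hr)).2

/-- (C3b) `r ≡ s` at the point `R` `⇒` `r(P) ≡ s(P)` modulo the maximal ideal of `Ab`. -/
theorem Centred.ev_sub_lt (h : Centred Φ Ab P R) {r s : F₀} (hr : r ∈ R) (hs : s ∈ R)
    (hrs : r - s ∈ rad R) : Ab.valuation (ev P (Φ r) - ev P (Φ s)) < 1 := by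
  have := h.ev_lt hrs
  rwa [map_sub, ev_sub (h.ord_nonneg hr) (h.ord_nonneg hs)] at this

/-- (C3c) `r ≡ 1` at the point `R` `⇒` `r(P) ∈ 1 + 𝔪`. -/
theorem Centred.ev_sub_one_lt (h : Centred Φ Ab P R) {r : F₀} (hr : r - 1 ∈ rad R) :
    P.ord (Φ r) = 0 ∧ Ab.valuation (ev P (Φ r) - 1) < 1 := by
  have hr' : r ∈ R := by
    have := R.add_mem hr.1 R.one_mem
    rwa [sub_add_cancel] at this
  have h1 := h.ev_sub_lt hr' R.one_mem hr
  have e1 : ev P (Φ 1) = 1 := by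
    have := ev_algebraMap P (1 : Kb)
    rwa [map_one, ← map_one Φ] at this
  rw [e1] at h1
  refine ⟨?_, h1⟩
  refine ((isVal_ev (h.ord_nonneg hr')).ord_eq_zero ?_).2
  intro h0
  rw [h0, zero_sub, Valuation.map_neg, map_one] at h1
  exact lt_irrefl _ h1

/-- The hypotheses on the base change `F₀ / K₀ → Fb / Kb`: `Ab` lies above `A₀`, with the same
residue field, and it is the integral closure of `A₀` (`A₀` is henselian). -/
structure BC (φ : K₀ →+* Kb) (Φ : F₀ →+* Fb) (A₀ : ValuationSubring K₀)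
    (Ab : ValuationSubring Kb) : Prop where
  comp : ∀ a : K₀, Φ (algebraMap K₀ F₀ a) = algebraMap Kb Fb (φ a)
  mem_iff : ∀ a : K₀, φ a ∈ Ab ↔ a ∈ A₀
  res : ∀ c ∈ Ab, ∃ a ∈ A₀, Ab.valuation (c - φ a) < 1
  int_mem : ∀ c ∈ Ab, ∃ (m : ℕ) (a : ℕ → K₀), (∀ i, a i ∈ A₀) ∧
    c ^ m + ∑ i ∈ Finset.range m, φ (a i) * c ^ i = 0
  int_lt : ∀ c : Kb, Ab.valuation c < 1 → ∃ (m : ℕ) (a : ℕ → K₀), (∀ i, A₀.valuation (a i) < 1) ∧
    c ^ m + ∑ i ∈ Finset.range m, φ (a i) * c ^ i = 0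

omit [IsAlgClosed Kb] [IsFF1 Kb Fb] in
theorem BC.lt_iff (H : BC φ Φ A₀ Ab) (a : K₀) : Ab.valuation (φ a) < 1 ↔ A₀.valuation a < 1 := by
  rw [val_lt_one_iff_inv, val_lt_one_iff_inv, ← map_inv₀, H.mem_iff, map_eq_zero]

omit [IsAlgClosed Kb] [IsFF1 Kb Fb] in
theorem BC.ev_const (H : BC φ Φ A₀ Ab) (P : Place Kb Fb) (a : K₀) :
    ev P (Φ (algebraMap K₀ F₀ a)) = φ a := by
  rw [H.comp, ev_algebraMap]

omit [IsAlgClosed Kb] [IsFF1 Kb Fb] in
theorem BC.ord_const (H : BC φ Φ A₀ Ab) (P : Place Kb Fb) (a : K₀) :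
    P.ord (Φ (algebraMap K₀ F₀ a)) = 0 := by
  rw [H.comp, ord_algebraMap]

/-- The restricted composite valuation ring is of closed point type. -/
theorem BC.isClosedVal (H : BC φ Φ A₀ Ab) (P : Place Kb Fb) :
    IsClosedVal A₀ (vRing Φ Ab P) where
  const_mem a ha := mem_vRing.mpr
    ⟨(H.ord_const P a).ge, by rw [H.ev_const]; exact (H.mem_iff a).mpr ha⟩
  const_lt a ha := val_vRing_lt_one_iff.mpr
    ⟨(H.ord_const P a).ge, by rw [H.ev_const]; exact (H.lt_iff a).mpr ha⟩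
  res y hy := by
    obtain ⟨h0, h1⟩ := mem_vRing.mp hy
    obtain ⟨a, ha, hlt⟩ := H.res _ h1
    refine ⟨a, ha, val_vRing_lt_one_iff.mpr ?_⟩
    have h2 : 0 ≤ P.ord (Φ (algebraMap K₀ F₀ a)) := (H.ord_const P a).ge
    rw [map_sub, ev_sub h0 h2, H.ev_const]
    exact ⟨ord_nonneg_of_mem P (sub_mem (mem_of_ord_nonneg P h0) (mem_of_ord_nonneg P h2)), hlt⟩

/-- (C1) **every place has a centre** on the model glued from the charts of `z` and `z⁻¹`. -/
theorem BC.exists_centre (H : BC φ Φ A₀ Ab) {ϖ₀ : K₀} (hϖ : A₀.valuation ϖ₀ < 1) (z : F₀)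
    (P : Place Kb Fb) : ∃ R : Subring F₀, IsModelPt A₀ ϖ₀ z R ∧ Centred Φ Ab P R :=
  (H.isClosedVal P).exists_modelPt hϖ z

/-- (C1') the centre lies on the chart of `z` if `z` is regular at `P` with integral value. -/
theorem BC.exists_centre_chart (H : BC φ Φ A₀ Ab) {ϖ₀ : K₀} (hϖ : A₀.valuation ϖ₀ < 1) {z : F₀}
    {P : Place Kb Fb} (h0 : 0 ≤ P.ord (Φ z)) (h1 : ev P (Φ z) ∈ Ab) :
    ∃ R : Subring F₀, IsClosedPt (algebraMap K₀ F₀ ϖ₀) (chart A₀.toSubring z) R ∧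
      Centred Φ Ab P R :=
  (H.isClosedVal P).exists_center hϖ (mem_vRing.mpr ⟨h0, h1⟩)

/-- (C2) **the centre is unique.** -/
theorem Centred.unique {ϖ₀ : K₀} (h₀ : IsUnif A₀ ϖ₀) {z : F₀} (hz : z ≠ 0) {R R' : Subring F₀}
    (hR : IsModelPt A₀ ϖ₀ z R) (hR' : IsModelPt A₀ ϖ₀ z R') (h : Centred Φ Ab P R)
    (h' : Centred Φ Ab P R') : R = R' :=
  IsModelPt.eq_of_dominates h₀ hz hR hR' h h'

/-- (C3d) `r ≡ a` at the point `R`, `a` a constant `⇒` `r(P) ≡ a` modulo the maximal ideal. -/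
theorem Centred.ev_sub_const_lt (H : BC φ Φ A₀ Ab) (h : Centred Φ Ab P R) {r : F₀} {a : K₀}
    (hr : r - algebraMap K₀ F₀ a ∈ rad R) (hr' : r ∈ R) :
    Ab.valuation (ev P (Φ r) - φ a) < 1 := by
  have := h.ev_lt hr
  rwa [map_sub, ev_sub (h.ord_nonneg hr') (H.ord_const P a).ge, H.ev_const] at this

/-- an element of `R` is a unit iff its value at one place centred at `R` is a unit. -/
theorem Centred.runit_iff (h : Centred Φ Ab P R) {r : F₀} (hr : r ∈ R) :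
    RUnit R r ↔ Ab.valuation (ev P (Φ r)) = 1 := by
  rw [runit_iff_of_dominates h hr, val_vRing_eq_one_iff]
  refine ⟨fun h1 => h1.2, fun h1 => ⟨((isVal_ev (h.ord_nonneg hr)).ord_eq_zero ?_).2, h1⟩⟩
  intro h0
  rw [h0, map_zero] at h1
  exact zero_ne_one h1

end BaseChange

end Fermat.Agent.S43.E0.Centre

end
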