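/-
Row 37 (S43), block E0, sub-block (O3) = CENTRES OF PLACES (helper59).  Part 3: HORIZONTAL PRIMES.

Setting of `Comp.lean`.  `Over Φ P W` : the place `P` of `Fb` lies over the valuation ring `W` of
`F₀`.

* `centred_of_over`  : `R ⊆ W` (`W` horizontal through the point `R`), `P` over `W`  `⇒`  `P` is
                       centred at `R`  (only uses that `Ab` is integral over the local ring `A₀`).
* `exists_over`      : every horizontal `W` is below a place `P`.
* `mem_of_sm`, `mem_of_node`, `runit_of_sm`, `runit_of_node` = (F2) : the UNIT CRITERION: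
                       `f` a unit at the vertical valuation(s) through `R` and `ord_P f = 0` at all
                       the places `P` centred at `R`  `⇒`  `f ∈ Rˣ`.
-/
import Fermat.Agent.S43.E0.Centre.Comp
import Fermat.Agent.S44.Depth.Abs.Krull
import Fermat.Agent.S18.Descent.Horizontal
import Fermat.Agent.S18.Descent.Places

set_option autoImplicit false

noncomputable section

namespace Fermat.Agent.S43.E0.Centre

open AlgebraicCurve Fermat.Agent.S24.FF Fermat.Agent.S27 Fermat.Agent.S18 Fermat.Agent.S36.BP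
  Fermat.Agent.BAD.LevelQ Fermat.Agent.S44.Depth Fermat.Agent.S18.Descent

section Aux

theorem recip_eq {L : Type*} [Field L] {t : L} (ht : t ≠ 0) (m : ℕ) (b : ℕ → L)
    (h : (t⁻¹) ^ m + ∑ i ∈ Finset.range m, b i * (t⁻¹) ^ i = 0) :
    1 + ∑ i ∈ Finset.range m, b i * t ^ (m - i) = 0 := by
  have h1 : t ^ m * ((t⁻¹) ^ m + ∑ i ∈ Finset.range m, b i * (t⁻¹) ^ i) = 0 := by
    rw [h, mul_zero]
  rw [mul_add, Finset.mul_sum, ← mul_pow, mul_inv_cancel₀ ht, one_pow] at h1
  rw [← h1]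
  congr 1
  refine Finset.sum_congr rfl fun i hi => ?_
  rw [pow_sub₀ _ ht (Finset.mem_range.mp hi).le, inv_pow]
  ring

theorem isVal_sum {K F : Type*} [Field K] [Field F] [Algebra K F] {v : Place K F} {ι : Type*}
    (s : Finset ι) (f : ι → F) (c : ι → K) (h : ∀ i ∈ s, IsVal v (f i) (c i)) :
    IsVal v (∑ i ∈ s, f i) (∑ i ∈ s, c i) := by
  classical
  induction s using Finset.induction_on with
  | empty =>
    rw [Finset.sum_empty, Finset.sum_empty]
    have := isVal_algebraMap v (0 : K)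
    rwa [map_zero] at this
  | insert i s hi ih =>
    rw [Finset.sum_insert hi, Finset.sum_insert hi]
    exact (h i (Finset.mem_insert_self i s)).add
      (ih fun j hj => h j (Finset.mem_insert_of_mem hj))

theorem sum_mem_rad {F : Type*} [Field F] {R : Subring F}
    (hadd : ∀ a ∈ rad R, ∀ b ∈ rad R, a + b ∈ rad R) {ι : Type*} (s : Finset ι) (f : ι → F)
    (h : ∀ i ∈ s, f i ∈ rad R) : ∑ i ∈ s, f i ∈ rad R := by
  classical
  induction s using Finset.induction_on with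
  | empty => rw [Finset.sum_empty]; exact zero_mem_rad R
  | insert i s hi ih =>
    rw [Finset.sum_insert hi]
    exact hadd _ (h i (Finset.mem_insert_self i s)) _
      (ih fun j hj => h j (Finset.mem_insert_of_mem hj))

end Aux

variable {K₀ F₀ Kb Fb : Type*} [Field K₀] [Field F₀] [Algebra K₀ F₀] [Field Kb] [Field Fb]
  [Algebra Kb Fb]

/-- The place `P` of `Fb` lies over the valuation ring `W` of `F₀`. -/
def Over (Φ : F₀ →+* Fb) (P : Place Kb Fb) (W : ValuationSubring F₀) : Prop :=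
  ∀ f : F₀, 0 ≤ P.ord (Φ f) ↔ f ∈ W

variable {φ : K₀ →+* Kb} {Φ : F₀ →+* Fb} {A₀ : ValuationSubring K₀} {Ab : ValuationSubring Kb}
  {P : Place Kb Fb} {R : Subring F₀} {W : ValuationSubring F₀}

theorem Over.lt_iff (h : Over Φ P W) (f : F₀) :
    W.valuation f < 1 ↔ f = 0 ∨ 0 < P.ord (Φ f) := by
  rw [val_lt_one_iff_inv, ← h, map_inv₀, P.ord_inv]
  constructor
  · rintro (h1 | h1)
    · exact Or.inl h1
    · exact Or.inr (by omega)
  · rintro (h1 | h1)
    · exact Or.inl h1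
    · exact Or.inr (by omega)

theorem Over.eq_one_iff (h : Over Φ P W) {f : F₀} (hf : f ≠ 0) :
    W.valuation f = 1 ↔ P.ord (Φ f) = 0 := by
  rw [val_eq_one_iff_le_not_lt, h.lt_iff, ← h]
  constructor
  · rintro ⟨h1, h2⟩
    have : ¬ 0 < P.ord (Φ f) := fun h3 => h2 (Or.inr h3)
    omega
  · intro h1
    refine ⟨h1.ge, ?_⟩
    rintro (h2 | h2)
    · exact hf h2
    · omega

/-- The valuation ring of `F₀` below a place of `Fb`. -/
def below (Φ : F₀ →+* Fb) (P : Place Kb Fb) : ValuationSubring F₀ := P.toValuationSubring.comap Φ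

theorem over_below (Φ : F₀ →+* Fb) (P : Place Kb Fb) : Over Φ P (below Φ P) := fun _ =>
  ⟨fun h => mem_of_ord_nonneg P h, fun h => ord_nonneg_of_mem P h⟩

theorem Over.eq_below (h : Over Φ P W) : W = below Φ P := by
  ext f
  rw [← h f, ← over_below Φ P f]

section Main

variable [IsAlgClosed Kb] [IsFF1 Kb Fb]

/-- the key computation: a relation `1 + ∑ cᵢ t ^ (m - i) = 0` for the value `t = r(P)` is
impossible if all the `cᵢ r ^ (m - i)` lie in the radical of `R`. -/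
theorem one_add_sum_ne_zero (H : BC φ Φ A₀ Ab)
    (hadd : ∀ a ∈ rad R, ∀ b ∈ rad R, a + b ∈ rad R) (hW : ∀ r ∈ R, r ∈ W) (hP : Over Φ P W)
    {r : F₀} (hr : r ∈ R) (m : ℕ) (c : ℕ → K₀)
    (hc : ∀ i < m, algebraMap K₀ F₀ (c i) * r ^ (m - i) ∈ rad R) :
    1 + ∑ i ∈ Finset.range m, φ (c i) * (ev P (Φ r)) ^ (m - i) ≠ 0 := by
  intro h0
  have hT : ∑ i ∈ Finset.range m, algebraMap K₀ F₀ (c i) * r ^ (m - i) ∈ rad R :=
    sum_mem_rad hadd _ _ fun i hi => hc i (Finset.mem_range.mp hi)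
  set T := ∑ i ∈ Finset.range m, algebraMap K₀ F₀ (c i) * r ^ (m - i) with hTdef
  have hs : 1 + T ∈ R := R.add_mem R.one_mem hT.1
  have hv : IsVal P (Φ r) (ev P (Φ r)) := isVal_ev ((hP r).mpr (hW r hr))
  have hvT : IsVal P (Φ T) (∑ i ∈ Finset.range m, φ (c i) * (ev P (Φ r)) ^ (m - i)) := by
    rw [hTdef, map_sum]
    refine isVal_sum _ _ _ fun i _ => ?_
    rw [map_mul, map_pow, H.comp]
    exact (isVal_algebraMap P _).mul (hv.pow _)
  have hv1 : IsVal P (Φ (1 + T)) 0 := by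
    rw [← h0, map_add, map_one]
    have h1 := isVal_algebraMap P (1 : Kb)
    rw [map_one] at h1
    exact h1.add hvT
  have hlt : W.valuation (1 + T) < 1 := by
    rw [hP.lt_iff]
    rcases isVal_zero_iff.mp hv1 with h1 | h1
    · exact Or.inl ((map_eq_zero Φ).mp h1)
    · exact Or.inr h1
  have h1 : 1 + T ∈ rad R := mem_rad_of_val_lt hW hs hlt
  have h2 := hadd _ h1 _ (neg_mem_rad hT)
  rw [add_neg_cancel_right] at h2
  exact h2.2 (RUnit.one R)

/-- (C4) **a place over a horizontal valuation ring through the point `R` is centred at `R`.** -/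
theorem centred_of_over (H : BC φ Φ A₀ Ab) (hR : IsPt A₀ R) (hW : ∀ r ∈ R, r ∈ W)
    (hP : Over Φ P W) : Centred Φ Ab P R := by
  have hmem : ∀ r ∈ R, ev P (Φ r) ∈ Ab := by
    intro r hr
    by_contra hn
    have ht0 : ev P (Φ r) ≠ 0 := by
      intro h
      rw [h] at hn
      exact hn Ab.zero_mem
    have hlt : Ab.valuation (ev P (Φ r))⁻¹ < 1 := by
      rw [val_lt_one_iff_inv, inv_inv]
      exact Or.inr hn
    obtain ⟨m, a, ha, e⟩ := H.int_lt _ hlt
    refine one_add_sum_ne_zero H hR.add_rad hW hP hr m a (fun i _ => ?_)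
      (recip_eq ht0 m (fun i => φ (a i)) e)
    rw [mul_comm]
    exact mul_mem_rad (R.pow_mem hr _) (hR.const_rad _ (ha i))
  rw [centred_iff]
  refine ⟨fun r hr => ⟨(hP r).mpr (hW r hr), hmem r hr⟩, fun r hr => ?_⟩
  by_contra hn
  have h1 : Ab.valuation (ev P (Φ r)) = 1 :=
    (val_eq_one_iff_le_not_lt _ _).mpr ⟨hmem r hr.1, hn⟩
  have ht0 : ev P (Φ r) ≠ 0 := by
    intro h
    rw [h, map_zero] at h1
    exact zero_ne_one h1
  have hinv : (ev P (Φ r))⁻¹ ∈ Ab := by
    rw [← Ab.valuation_le_one_iff, map_inv₀, h1, inv_one]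
  obtain ⟨m, a, ha, e⟩ := H.int_mem _ hinv
  refine one_add_sum_ne_zero H hR.add_rad hW hP hr.1 m a (fun i hi => ?_)
    (recip_eq ht0 m (fun i => φ (a i)) e)
  have e1 : r ^ (m - i) = r ^ (m - i - 1) * r := by
    rw [← pow_succ]
    congr 1
    omega
  rw [e1, ← mul_assoc]
  exact mul_mem_rad (R.mul_mem (hR.const_mem _ (ha i)) (R.pow_mem hr.1 _)) hr

/-- a place centred at `R` lies over a valuation ring containing `R` and the constants. -/
theorem Centred.le_below (h : Centred Φ Ab P R) : ∀ r ∈ R, r ∈ below Φ P := fun _ hr =>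
  (over_below Φ P _).mp (h.ord_nonneg hr)

omit [IsAlgClosed Kb] [IsFF1 Kb Fb] in
theorem const_mem_below (hcomp : ∀ a : K₀, Φ (algebraMap K₀ F₀ a) = algebraMap Kb Fb (φ a))
    (P : Place Kb Fb) (a : K₀) : algebraMap K₀ F₀ a ∈ below Φ P :=
  (over_below Φ P _).mp (by rw [hcomp, ord_algebraMap])

omit [IsAlgClosed Kb] in
/-- (C4') every horizontal valuation ring of `F₀` lies below a place of `Fb`. -/
theorem exists_over [CharZero K₀] [IsFF1 K₀ F₀] [CharZero Kb]
    (hcomp : ∀ a : K₀, Φ (algebraMap K₀ F₀ a) = algebraMap Kb Fb (φ a)) (hint : φ.IsIntegral)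
    (hK : ∀ a : K₀, algebraMap K₀ F₀ a ∈ W) (hne : W ≠ ⊤) : ∃ P : Place Kb Fb, Over Φ P W := by
  obtain ⟨P, hP⟩ := exists_placeOver φ Φ hcomp hint (placeOfVS W hK hne)
  refine ⟨P, fun f => ?_⟩
  have := hP f
  rw [placeOfVS_toValuationSubring] at this
  rw [← this]
  exact ⟨fun h => mem_of_ord_nonneg P h, fun h => ord_nonneg_of_mem P h⟩

variable [CharZero K₀] [IsFF1 K₀ F₀] [CharZero Kb]

/-- every horizontal valuation ring through `R` lies below a place centred at `R`. -/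
theorem exists_centred_over (H : BC φ Φ A₀ Ab) (hint : φ.IsIntegral) (hR : IsPt A₀ R)
    (hW : Hor K₀ R W) : ∃ P : Place Kb Fb, Over Φ P W ∧ Centred Φ Ab P R := by
  obtain ⟨P, hP⟩ := exists_over (Φ := Φ) H.comp hint hW.1 hW.2.2
  exact ⟨P, hP, centred_of_over H hR hW.2.1 hP⟩

/-- regular at all the places centred at `R` `⇒` in all the horizontal valuation rings. -/
theorem mem_hor_of_centred (H : BC φ Φ A₀ Ab) (hint : φ.IsIntegral) (hR : IsPt A₀ R) {f : F₀}
    (hf : ∀ P : Place Kb Fb, Centred Φ Ab P R → 0 ≤ P.ord (Φ f)) :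
    ∀ W : ValuationSubring F₀, Hor K₀ R W → f ∈ W := by
  intro W hW
  obtain ⟨P, hP, hc⟩ := exists_centred_over H hint hR hW
  exact (hP f).mp (hf P hc)

variable {ϖ₀ : K₀}

/-- (F2, membership, smooth point) -/
theorem mem_of_sm (H : BC φ Φ A₀ Ab) (hint : φ.IsIntegral) (hA : IsUnif A₀ ϖ₀)
    {V : ValuationSubring F₀} (hS : IsSm A₀ ϖ₀ V R) {f : F₀} (hV : f ∈ V)
    (hf : ∀ P : Place Kb Fb, Centred Φ Ab P R → 0 ≤ P.ord (Φ f)) : f ∈ R :=
  krull_sm hA hS hV (mem_hor_of_centred H hint hS.isPt hf)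

/-- (F2, membership, node) -/
theorem mem_of_node (H : BC φ Φ A₀ Ab) (hint : φ.IsIntegral) (hA : IsUnif A₀ ϖ₀)
    {Vi V0 : ValuationSubring F₀} {x y : F₀} (hN : IsNode A₀ ϖ₀ Vi V0 x y R) {f : F₀}
    (hi : f ∈ Vi) (h0 : f ∈ V0)
    (hf : ∀ P : Place Kb Fb, Centred Φ Ab P R → 0 ≤ P.ord (Φ f)) : f ∈ R :=
  krull_node hA hN hi h0 (mem_hor_of_centred H hint hN.isPt hf)

/-- (F2) **the unit criterion at a smooth point.** -/
theorem runit_of_sm (H : BC φ Φ A₀ Ab) (hint : φ.IsIntegral) (hA : IsUnif A₀ ϖ₀)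
    {V : ValuationSubring F₀} (hS : IsSm A₀ ϖ₀ V R) {f : F₀} (hV : V.valuation f = 1)
    (hf : ∀ P : Place Kb Fb, Centred Φ Ab P R → P.ord (Φ f) = 0) : RUnit R f := by
  obtain ⟨h0, h1, h2⟩ := val_eq_one_iff.mp hV
  refine ⟨h0, mem_of_sm H hint hA hS h1 fun P hP => (hf P hP).ge,
    mem_of_sm H hint hA hS h2 fun P hP => ?_⟩
  rw [map_inv₀, P.ord_inv, hf P hP, neg_zero]

/-- (F2) **the unit criterion at a node.** -/
theorem runit_of_node (H : BC φ Φ A₀ Ab) (hint : φ.IsIntegral) (hA : IsUnif A₀ ϖ₀)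
    {Vi V0 : ValuationSubring F₀} {x y : F₀} (hN : IsNode A₀ ϖ₀ Vi V0 x y R) {f : F₀}
    (hi : Vi.valuation f = 1) (h0 : V0.valuation f = 1)
    (hf : ∀ P : Place Kb Fb, Centred Φ Ab P R → P.ord (Φ f) = 0) : RUnit R f := by
  obtain ⟨hf0, h1, h2⟩ := val_eq_one_iff.mp hi
  obtain ⟨-, h3, h4⟩ := val_eq_one_iff.mp h0
  refine ⟨hf0, mem_of_node H hint hA hN h1 h3 fun P hP => (hf P hP).ge,
    mem_of_node H hint hA hN h2 h4 fun P hP => ?_⟩
  rw [map_inv₀, P.ord_inv, hf P hP, neg_zero]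

end Main

end Fermat.Agent.S43.E0.Centre

end
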