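/-
Row 37 (S43), block E0, sub-block (O3) = CENTRES OF PLACES (helper59).  Part 4: THE INSTANCE
`K₀ = K0 A` (inertia field), `A₀ = A0 A`, `Kb = ℚ̄`, `Ab = A`, and ANY ring homomorphism
`Φ : F₀ → Fb` compatible with the constants (`bcK (K0 A) N`, `bcX (K0 A) N : FK (K0 A) N → FN N`).

* `bc_of_comp`, `bc_bcK`, `bc_bcX` : the hypotheses `BC` of `Comp.lean`;
* `ctr_of_comp`, `ctr_bcK`, `ctr_bcX` : leaf CTR of (O) in the shape of `O/Top.lean`
  (`weil_eq_one_of_span`, hypothesis `ctr`), for `Pts = {R | IsModelPt (A0 A) q z R}`, any `z`.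
-/
import Fermat.Agent.S43.E0.Centre.Hor
import Fermat.Agent.S44.Depth.Inst.GL.HorDiv
import Fermat.Agent.S44.X.Cover.Defs
import Fermat.Agent.BAD.Bridge.BaseHyp
import Fermat.Agent.Lib.InertiaField.Integral
import Fermat.Agent.Lib.InertiaField.Residue

set_option autoImplicit false

noncomputable section

namespace Fermat.Agent.S43.E0.Centre

open ModularCurve AlgebraicCurve Fermat.Agent.S24 Fermat.Agent.S24.FF Fermat.Agent.S27
  Fermat.Agent.S36.BP Fermat.Agent.BAD.LevelQ Fermat.Agent.S44.Depth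
  Fermat.Agent.S44.Depth.Inst Fermat.Agent.Lib.InertiaField Fermat.Agent.BAD.Bridge
  Fermat.Agent.S44.X.Cover

variable (A : ValuationSubring S44.Qb) {q : ℕ}

section Generic

variable {F₀ Fb : Type*} [Field F₀] [Algebra (K0 A) F₀] [Field Fb] [Algebra S44.Qb Fb]

/-- **`BC` for the inertia field.** -/
theorem bc_of_comp (Φ : F₀ →+* Fb)
    (hcomp : ∀ a : K0 A, Φ (algebraMap (K0 A) F₀ a) =
      algebraMap S44.Qb Fb (algebraMap (K0 A) S44.Qb a))
    (hq : q.Prime) (hA : A.LiesOverPrime q) :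
    BC (algebraMap (K0 A) S44.Qb) Φ (A0 A) A where
  comp := hcomp
  mem_iff a := (mem_A0_iff A a).symm
  res c hc := by
    obtain ⟨b, hb, hbA, h⟩ := exists_mem_K0_sub_mem A q hq hA hc
    exact ⟨⟨b, hb⟩, hbA, A.mem_nonunits_iff.mp h⟩
  int_mem c hc := by
    obtain ⟨f, hm, hf, h0⟩ := exists_monic_of_mem A hc
    refine ⟨f.natDegree, fun i => ⟨f.coeff i, (hf i).1⟩, fun i => (hf i).2, ?_⟩
    rw [Polynomial.eval_eq_sum_range, Finset.sum_range_succ, hm.coeff_natDegree, one_mul] at h0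
    rw [add_comm]
    exact h0
  int_lt c hc := by
    obtain ⟨f, hm, hf, hlt, h0⟩ :=
      exists_monic_of_mem_nonunits A (A.mem_nonunits_iff.mpr hc)
    refine ⟨f.natDegree, fun i => if i < f.natDegree then ⟨f.coeff i, hf i⟩ else 0,
      fun i => ?_, ?_⟩
    · dsimp only
      split_ifs with hi
      · exact (A0 A).mem_nonunits_iff.mp ((mem_nonunits_A0_iff A _).mpr (hlt i hi))
      · rw [map_zero]
        exact zero_lt_one
    · rw [Polynomial.eval_eq_sum_range, Finset.sum_range_succ, hm.coeff_natDegree, one_mul] at h0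
      rw [add_comm, ← h0]
      congr 1
      refine Finset.sum_congr rfl fun i hi => ?_
      dsimp only
      rw [if_pos (Finset.mem_range.mp hi)]
      rfl

theorem isIntegral_K0 : (algebraMap (K0 A) S44.Qb).IsIntegral :=
  glHorDiv_isIntegral (K0 A)

theorem val_q_lt_one (hq : q.Prime) (hA : A.LiesOverPrime q) :
    (A0 A).valuation (q : K0 A) < 1 :=
  CoordAux.valuation_unif_lt_one (isUnif_A0 A q hq hA)

/-- **Leaf CTR of (O)**, generic form. -/
theorem ctr_of_comp [IsFF1 S44.Qb Fb] (Φ : F₀ →+* Fb)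
    (hcomp : ∀ a : K0 A, Φ (algebraMap (K0 A) F₀ a) =
      algebraMap S44.Qb Fb (algebraMap (K0 A) S44.Qb a))
    (hq : q.Prime) (hA : A.LiesOverPrime q) (z : F₀) (v : Place S44.Qb Fb) :
    ∃ R ∈ {R : Subring F₀ | IsModelPt (A0 A) (q : K0 A) z R},
      (∀ r ∈ R, 0 ≤ v.ord (Φ r) ∧ ev v (Φ r) ∈ A) ∧
        ∀ r ∈ rad R, A.valuation (ev v (Φ r)) < 1 := by
  obtain ⟨R, hR, hc⟩ := (bc_of_comp A Φ hcomp hq hA).exists_centre (val_q_lt_one A hq hA) z v
  exact ⟨R, hR, centred_iff.mp hc⟩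

end Generic

variable (N : ℕ)

theorem bc_bcK (hq : q.Prime) (hA : A.LiesOverPrime q) :
    BC (algebraMap (K0 A) S44.Qb) (bcK (K0 A) N) (A0 A) A :=
  bc_of_comp A _ (glHorDiv_bcK_algebraMap (K0 A) N) hq hA

theorem bc_bcX (hq : q.Prime) (hA : A.LiesOverPrime q) :
    BC (algebraMap (K0 A) S44.Qb) (bcX (K0 A) N) (A0 A) A :=
  bc_of_comp A _ (glHorDiv_bcK_algebraMap (K0 A) N) hq hA

/-- **Leaf CTR of (O)** for `bcK`. -/
theorem ctr_bcK [NeZero N] (hq : q.Prime) (hA : A.LiesOverPrime q) (z : FK (K0 A) N)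
    (v : Place Kbar (FN N)) :
    ∃ R ∈ {R : Subring (FK (K0 A) N) | IsModelPt (A0 A) (q : K0 A) z R},
      (∀ r ∈ R, 0 ≤ v.ord (bcK (K0 A) N r) ∧ ev v (bcK (K0 A) N r) ∈ A) ∧
        ∀ r ∈ rad R, A.valuation (ev v (bcK (K0 A) N r)) < 1 :=
  haveI : IsFF1 Kbar (FN N) := S24.Export.isFF1 N
  ctr_of_comp A _ (glHorDiv_bcK_algebraMap (K0 A) N) hq hA z v

/-- **Leaf CTR of (O)** for `bcX`. -/
theorem ctr_bcX [NeZero N] (hq : q.Prime) (hA : A.LiesOverPrime q) (z : FK (K0 A) N)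
    (v : Place Kbar (FN N)) :
    ∃ R ∈ {R : Subring (FK (K0 A) N) | IsModelPt (A0 A) (q : K0 A) z R},
      (∀ r ∈ R, 0 ≤ v.ord (bcX (K0 A) N r) ∧ ev v (bcX (K0 A) N r) ∈ A) ∧
        ∀ r ∈ rad R, A.valuation (ev v (bcX (K0 A) N r)) < 1 :=
  haveI : IsFF1 Kbar (FN N) := S24.Export.isFF1 N
  ctr_of_comp A _ (glHorDiv_bcK_algebraMap (K0 A) N) hq hA z v

end Fermat.Agent.S43.E0.Centre

end
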